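import Mathlib

set_option autoImplicit false

/-!
# A lattice in `ℂ` is determined by its power sums `G n`
-/

open Filter Topology

noncomputable section

namespace Fermat.Agent.JInv

open PeriodPair

lemma weierstrassPExcept_eventuallyEq (L L' : PeriodPair) (h : ∀ n, 3 ≤ n → L.G n = L'.G n) :
    weierstrassPExcept L 0 =ᶠ[𝓝 0] weierstrassPExcept L' 0 := by
  have h1 := L.hasFPowerSeriesAt_weierstrassPExcept 0
  have h2 := L'.hasFPowerSeriesAt_weierstrassPExcept 0
  have h3 : (FormalMultilinearSeries.ofScalars (𝕜 := ℂ) ℂ fun i : ℕ ↦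
      if i = 0 then weierstrassPExcept L 0 0 else (i + 1) * L.sumInvPow 0 (i + 2)) =
      (FormalMultilinearSeries.ofScalars (𝕜 := ℂ) ℂ fun i : ℕ ↦
      if i = 0 then weierstrassPExcept L' 0 0 else (i + 1) * L'.sumInvPow 0 (i + 2)) := by
    congr 1
    funext i
    split_ifs with hi
    · simp
    · rw [sumInvPow_zero, sumInvPow_zero, h (i + 2) (by omega)]
  rw [h3] at h1
  filter_upwards [h1.eventually_hasSum, h2.eventually_hasSum] with z hz1 hz2
  simpa using hz1.unique hz2

lemma weierstrassP_eventuallyEq (L L' : PeriodPair) (h : ∀ n, 3 ≤ n → L.G n = L'.G n) :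
    weierstrassP L =ᶠ[𝓝 0] weierstrassP L' := by
  filter_upwards [weierstrassPExcept_eventuallyEq L L' h] with z hz
  have e1 := L.weierstrassPExcept_add ⟨0, zero_mem _⟩ z
  have e2 := L'.weierstrassPExcept_add ⟨0, zero_mem _⟩ z
  simp only at e1 e2
  rw [← e1, ← e2, hz]

lemma countable_lattice (L : PeriodPair) : (L.lattice : Set ℂ).Countable := by
  have : Countable L.lattice := L.latticeEquivProd.toEquiv.countable_iff.mpr inferInstance
  exact Set.countable_coe_iff.mp this

lemma weierstrassP_eqOn (L L' : PeriodPair) (h : ∀ n, 3 ≤ n → L.G n = L'.G n) :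
    Set.EqOn (weierstrassP L) (weierstrassP L') ((L.lattice : Set ℂ) ∪ L'.lattice)ᶜ := by
  have hc : IsConnected ((L.lattice : Set ℂ) ∪ L'.lattice)ᶜ :=
    ((countable_lattice L).union (countable_lattice L')).isConnected_compl_of_one_lt_rank
      (by simp [Complex.rank_real_complex])
  have hopen : IsOpen ((L.lattice : Set ℂ) ∪ L'.lattice)ᶜ :=
    (L.isClosed_lattice.union L'.isClosed_lattice).isOpen_compl
  -- find a point near zero
  have hev := weierstrassP_eventuallyEq L L' h
  obtain ⟨U, hUsub, hUopen, hU0⟩ := mem_nhds_iff.mp hev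
  -- the complement of a countable set is dense
  have hd : Dense ((L.lattice : Set ℂ) ∪ L'.lattice)ᶜ :=
    ((countable_lattice L).union (countable_lattice L')).dense_compl ℝ
  obtain ⟨z₀, hz₀U, hz₀⟩ := hd.inter_open_nonempty U hUopen ⟨0, hU0⟩
  have ha : AnalyticOnNhd ℂ (weierstrassP L) ((L.lattice : Set ℂ) ∪ L'.lattice)ᶜ :=
    L.analyticOnNhd_weierstrassP.mono (Set.compl_subset_compl.mpr Set.subset_union_left)
  have ha' : AnalyticOnNhd ℂ (weierstrassP L') ((L.lattice : Set ℂ) ∪ L'.lattice)ᶜ :=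
    L'.analyticOnNhd_weierstrassP.mono (Set.compl_subset_compl.mpr Set.subset_union_right)
  refine ha.eqOn_of_preconnected_of_eventuallyEq ha' hc.isPreconnected hz₀ ?_
  exact Filter.eventually_of_mem (hUopen.mem_nhds hz₀U) (fun z hz => hUsub hz)

lemma lattice_le_of_G_eq (L L' : PeriodPair) (h : ∀ n, 3 ≤ n → L.G n = L'.G n) :
    L.lattice ≤ L'.lattice := by
  intro x hx
  by_contra hx'
  have h1 : meromorphicOrderAt (weierstrassP L) x = -2 := L.order_weierstrassP x hx
  have h2 : AnalyticAt ℂ (weierstrassP L') x := L'.analyticOnNhd_weierstrassP x hx'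
  have h3 : weierstrassP L =ᶠ[𝓝[≠] x] weierstrassP L' := by
    have e1 : ∀ᶠ z in 𝓝[≠] x, z ∉ L.lattice := by
      have := L.compl_lattice_sdiff_singleton_mem_nhds x
      filter_upwards [mem_nhdsWithin_of_mem_nhds this, self_mem_nhdsWithin] with z hz hz2 hz3
      exact hz ⟨hz3, hz2⟩
    have e2 : ∀ᶠ z in 𝓝[≠] x, z ∉ L'.lattice :=
      mem_nhdsWithin_of_mem_nhds (L'.isClosed_lattice.isOpen_compl.mem_nhds hx')
    filter_upwards [e1, e2] with z hz1 hz2
    exact weierstrassP_eqOn L L' h (by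
      simp only [Set.mem_compl_iff, Set.mem_union, SetLike.mem_coe, not_or]
      exact ⟨hz1, hz2⟩)
  rw [meromorphicOrderAt_congr h3] at h1
  have h4 := h2.meromorphicOrderAt_nonneg
  rw [h1] at h4
  exact absurd h4 (by decide)

theorem lattice_eq_of_G_eq (L L' : PeriodPair) (h : ∀ n, 3 ≤ n → L.G n = L'.G n) :
    L.lattice = L'.lattice :=
  le_antisymm (lattice_le_of_G_eq L L' h) (lattice_le_of_G_eq L' L fun n hn => (h n hn).symm)

theorem lattice_eq_of_G_eq_even (L L' : PeriodPair)
    (h : ∀ n, 4 ≤ n → Even n → L.G n = L'.G n) : L.lattice = L'.lattice := by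
  refine lattice_eq_of_G_eq L L' fun n hn => ?_
  rcases Nat.even_or_odd n with he | ho
  · refine h n ?_ he
    obtain ⟨m, rfl⟩ := he
    omega
  · rw [L.G_eq_zero_of_odd n ho, L'.G_eq_zero_of_odd n ho]

end Fermat.Agent.JInv
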