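import Mathlib

set_option autoImplicit false

/-!
# Level one modular forms do not see more than `E₄` and `E₆`
-/

open UpperHalfPlane ModularForm ModularFormClass MatrixGroups EisensteinSeries

noncomputable section

namespace Fermat.Agent.JInv

/-- Existence of a weight `k` level one form with constant term one and obeying a given
scaling behaviour. -/
lemma exists_form_scale {τ τ' : ℍ} {t : ℂ} (h4 : E₄ τ' = t ^ 4 * E₄ τ)
    (h6 : E₆ τ' = t ^ 6 * E₆ τ) (k : ℕ) (hk : 3 ≤ k) (hk2 : Even k) :
    ∃ g : ModularForm 𝒮ℒ (k : ℤ), (qExpansion 1 g).coeff 0 = 1 ∧ g τ' = t ^ k * g τ := by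
  induction k using Nat.strong_induction_on with
  | h k ih =>
    obtain ⟨m, rfl⟩ := hk2
    rcases lt_or_ge m 4 with h | h
    · have hm : m = 2 ∨ m = 3 := by omega
      rcases hm with rfl | rfl
      · exact ⟨E₄, E_qExpansion_coeff_zero _ ⟨2, rfl⟩, h4⟩
      · exact ⟨E₆, E_qExpansion_coeff_zero _ ⟨3, rfl⟩, h6⟩
    · obtain ⟨g, hg0, hg⟩ := ih (m + m - 4) (by omega) (by omega) ⟨m - 2, by omega⟩
      refine ⟨ModularForm.mcast (by omega) (E₄.mul g), ?_, ?_⟩
      · rw [ModularForm.coe_mcast, ModularForm.qExpansion_mul one_pos one_mem_strictPeriods_SL]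
        have h1 := E_qExpansion_coeff_zero (by norm_num : 3 ≤ 4) (⟨2, rfl⟩ : Even 4)
        simp only [PowerSeries.coeff_zero_eq_constantCoeff] at h1 hg0 ⊢
        rw [map_mul, h1, hg0, mul_one]
      · have : ∀ z, (ModularForm.mcast (a := ((4 : ℤ) + ((m + m - 4 : ℕ) : ℤ)))
            (b := ((m + m : ℕ) : ℤ)) (by omega) (E₄.mul g) : ModularForm 𝒮ℒ _) z
            = E₄ z * g z := fun z => rfl
        rw [this, this, h4, hg]
        have h5 : t ^ (m + m) = t ^ 4 * t ^ (m + m - 4) := by
          rw [← pow_add]; congr 1; omega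
        rw [h5]
        ring

theorem form_scale {τ τ' : ℍ} {t : ℂ} (h4 : E₄ τ' = t ^ 4 * E₄ τ)
    (h6 : E₆ τ' = t ^ 6 * E₆ τ) (k : ℕ) (f : ModularForm 𝒮ℒ (k : ℤ)) :
    f τ' = t ^ k * f τ := by
  induction k using Nat.strong_induction_on with
  | h k ih =>
    rcases Nat.even_or_odd k with hk2 | hk2
    swap
    · rw [levelOne_odd_weight_eq_zero (by exact_mod_cast hk2) f]
      simp
    rcases lt_or_ge k 3 with hk | hk
    · have hk' : k = 0 ∨ k = 2 := by
        obtain ⟨m, rfl⟩ := hk2
        omega
      rcases hk' with rfl | rfl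
      · obtain ⟨c, hc⟩ := levelOne_weight_zero_const (F := ModularForm 𝒮ℒ (0 : ℤ)) f
        have hc' : ∀ z, f z = c := fun z => congr_fun hc z
        rw [hc', hc']; simp
      · have := rank_zero_iff_forall_zero.mp levelOne_weight_two_rank_zero f
        rw [this]; simp
    · obtain ⟨g, hg0, hg⟩ := exists_form_scale h4 h6 k hk hk2
      set c := (qExpansion 1 f).coeff 0 with hc
      have hcusp : (qExpansion 1 (f - c • g : ModularForm 𝒮ℒ (k : ℤ))).coeff 0 = 0 := by
        rw [FunLike.coe_sub, ModularForm.qExpansion_sub one_pos one_mem_strictPeriods_SL,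
          FunLike.coe_smul, ModularForm.qExpansion_smul one_pos one_mem_strictPeriods_SL,
          map_sub, PowerSeries.coeff_smul, hg0, smul_eq_mul, mul_one, sub_self]
      set u := toCuspForm (f - c • g) hcusp with hu
      have hu' : ∀ z, f z = c * g z + u z := by
        intro z
        rw [hu, toCuspForm_apply]
        simp
      have hΔ : CuspForm.discriminant τ' = t ^ 12 * CuspForm.discriminant τ := by
        have e1 := discriminant_eq_E₄_cube_sub_E₆_sq τ'
        have e2 := discriminant_eq_E₄_cube_sub_E₆_sq τ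
        rw [CuspForm.coe_discriminant, e1, e2, h4, h6]
        ring
      have hu2 : u τ' = t ^ k * u τ := by
        have hd : ∀ z, u z = CuspForm.discriminant z * (CuspForm.discriminantEquiv u) z := by
          intro z
          rw [CuspForm.coe_discriminant, discriminant_mul_discriminantEquiv_apply]
        rcases lt_or_ge k 12 with hk12 | hk12
        · have h0 : CuspForm.discriminantEquiv u = 0 :=
            rank_zero_iff_forall_zero.mp (levelOne_neg_weight_rank_zero (by lia)) _
          rw [hd, hd τ, h0]
          simp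
        · have h0 := ih (k - 12) (by lia)
            (ModularForm.mcast (by lia) (CuspForm.discriminantEquiv u))
          simp only [ModularForm.coe_mcast] at h0
          rw [hd, hd τ, h0, hΔ]
          have h5 : t ^ k = t ^ 12 * t ^ (k - 12) := by
            rw [← pow_add]; congr 1; omega
          rw [h5]
          ring
      rw [hu', hu' τ, hu2, hg]
      ring

end Fermat.Agent.JInv
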