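import Mathlib
import Fermat.Agent.JInv.Scale
import Fermat.Agent.JInv.Lattice

set_option autoImplicit false

/-!
# The `j`-invariant is injective on `SL₂(ℤ) \ ℍ`
-/

open UpperHalfPlane ModularForm ModularFormClass MatrixGroups EisensteinSeries

noncomputable section

namespace Fermat.Agent.JInv

open PeriodPair

lemma linInd_scaled (τ : ℍ) {s : ℂ} (hs : s ≠ 0) : LinearIndependent ℝ ![s * (τ : ℂ), s] := by
  rw [LinearIndependent.pair_iff]
  intro a b h
  have h1 : s * ((a : ℂ) * τ + b) = 0 := by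
    simp only [Complex.real_smul] at h
    linear_combination h
  have h2 : ((a : ℂ) * τ + b) = 0 := (mul_eq_zero.mp h1).resolve_left hs
  have h3 : a * (τ : ℂ).im = 0 := by
    have := congrArg Complex.im h2
    simpa using this
  have ha : a = 0 := by
    rcases mul_eq_zero.mp h3 with h | h
    · exact h
    · exact absurd h τ.im_pos.ne'
  subst ha
  refine ⟨rfl, ?_⟩
  simpa using h2

/-- The lattice `s (ℤ τ + ℤ)`. -/
def pairOf (τ : ℍ) (s : ℂ) (hs : s ≠ 0) : PeriodPair := ⟨s * τ, s, linInd_scaled τ hs⟩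

lemma mem_pairOf {τ : ℍ} {s : ℂ} {hs : s ≠ 0} {x : ℂ} :
    x ∈ (pairOf τ s hs).lattice ↔ ∃ m n : ℤ, s * (m * τ + n) = x := by
  rw [mem_lattice]
  constructor
  · rintro ⟨m, n, h⟩
    refine ⟨m, n, ?_⟩
    rw [← h]; simp only [pairOf]; ring
  · rintro ⟨m, n, h⟩
    refine ⟨m, n, ?_⟩
    rw [← h]; simp only [pairOf]; ring

lemma G_pairOf (τ : ℍ) (s : ℂ) (hs : s ≠ 0) (k : ℕ) (hk : 3 ≤ k) :
    (pairOf τ s hs).G k = (s ^ k)⁻¹ * (2 * riemannZeta k * E hk τ) := by
  have h1 := tsum_eisSummand_eq_riemannZeta_mul_eisensteinSeries hk τ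
  have h2 : E hk τ = (1 / 2 : ℂ) * eisensteinSeries (N := 1) 0 k τ := rfl
  have h3 : 2 * riemannZeta k * E hk τ = ∑' v : Fin 2 → ℤ, eisSummand k v τ := by
    rw [h1, h2]; ring
  rw [h3, PeriodPair.G, ← (pairOf τ s hs).latticeEquivProd.symm.toEquiv.tsum_eq,
    ← (finTwoArrowEquiv ℤ).tsum_eq, ← tsum_mul_left]
  refine tsum_congr fun v => ?_
  have h4 : (((pairOf τ s hs).latticeEquivProd.symm.toEquiv (finTwoArrowEquiv ℤ v) :
      (pairOf τ s hs).lattice) : ℂ) = s * (v 0 * τ + v 1) := by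
    rw [LinearEquiv.coe_toEquiv, latticeEquiv_symm_apply]
    have e1 : (finTwoArrowEquiv ℤ v).1 = v 0 := rfl
    have e2 : (finTwoArrowEquiv ℤ v).2 = v 1 := rfl
    rw [e1, e2]
    simp only [pairOf]
    ring
  rw [h4, eisSummand, mul_pow, mul_inv, zpow_neg, zpow_natCast]

/-- If `(E₄ τ', E₆ τ') = (t⁴ E₄ τ, t⁶ E₆ τ)` then `τ'` is `SL₂(ℤ)`-equivalent to `τ`. -/
theorem exists_smul_eq_of_scale {τ τ' : ℍ} {t : ℂ} (ht : t ≠ 0) (h4 : E₄ τ' = t ^ 4 * E₄ τ)
    (h6 : E₆ τ' = t ^ 6 * E₆ τ) : ∃ γ : SL(2, ℤ), γ • τ = τ' := by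
  have ht' : t⁻¹ ≠ 0 := inv_ne_zero ht
  have hlat : (pairOf τ' 1 one_ne_zero).lattice = (pairOf τ t⁻¹ ht').lattice := by
    refine lattice_eq_of_G_eq_even _ _ fun n hn he => ?_
    rw [G_pairOf _ _ _ n (by omega), G_pairOf _ _ _ n (by omega),
      form_scale h4 h6 n (E (by omega : 3 ≤ n))]
    simp only [one_pow, inv_one, one_mul, inv_pow, inv_inv]
    ring
  have m1 : (τ' : ℂ) ∈ (pairOf τ' 1 one_ne_zero).lattice := mem_pairOf.mpr ⟨1, 0, by simp⟩
  have m2 : (1 : ℂ) ∈ (pairOf τ' 1 one_ne_zero).lattice := mem_pairOf.mpr ⟨0, 1, by simp⟩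
  have m3 : t⁻¹ * (τ : ℂ) ∈ (pairOf τ t⁻¹ ht').lattice := mem_pairOf.mpr ⟨1, 0, by simp⟩
  have m4 : t⁻¹ ∈ (pairOf τ t⁻¹ ht').lattice := mem_pairOf.mpr ⟨0, 1, by simp⟩
  rw [hlat, mem_pairOf] at m1 m2
  rw [← hlat, mem_pairOf] at m3 m4
  obtain ⟨a, b, hab⟩ := m1
  obtain ⟨c, d, hcd⟩ := m2
  obtain ⟨a', b', hab'⟩ := m3
  obtain ⟨c', d', hcd'⟩ := m4
  -- `cτ + d = t`
  have hcd2 : (c : ℂ) * τ + d = t := by
    field_simp at hcd
    exact hcd
  have hab2 : (a : ℂ) * τ + b = t * τ' := by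
    field_simp at hab
    exact hab
  -- independence of `τ', 1` over the integers
  have hind : ∀ m n : ℤ, (m : ℂ) * (τ' : ℂ) + n = 0 → m = 0 ∧ n = 0 := by
    intro m n hmn
    have h1 : (m : ℝ) * (τ' : ℂ).im = 0 := by
      have := congrArg Complex.im hmn
      simpa using this
    have hm : m = 0 := by
      rcases mul_eq_zero.mp h1 with h | h
      · exact_mod_cast h
      · exact absurd h τ'.im_pos.ne'
    subst hm
    simpa using hmn
  have q1 : a * a' + b * c' = 1 ∧ a * b' + b * d' = 0 := by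
    have := hind (a * a' + b * c' - 1) (a * b' + b * d') (by
      push_cast
      have e : t⁻¹ * ((a : ℂ) * τ + b) = τ' := hab
      linear_combination (a : ℂ) * hab' + (b : ℂ) * hcd' + e)
    constructor
    · linarith [this.1]
    · exact this.2
  have q2 : c * a' + d * c' = 0 ∧ c * b' + d * d' = 1 := by
    have := hind (c * a' + d * c') (c * b' + d * d' - 1) (by
      push_cast
      have e : t⁻¹ * ((c : ℂ) * τ + d) = 1 := hcd
      linear_combination (c : ℂ) * hab' + (d : ℂ) * hcd' + e)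
    constructor
    · exact this.1
    · linarith [this.2]
  have hdet : (a * d - b * c) * (a' * d' - b' * c') = 1 := by
    have e1 := q1.1
    have e2 := q1.2
    have e3 := q2.1
    have e4 := q2.2
    linear_combination (c * b' + d * d') * e1 + e4 - (c * a' + d * c') * e2
  have hdet' : a * d - b * c = 1 ∨ a * d - b * c = -1 :=
    Int.eq_one_or_neg_one_of_mul_eq_one hdet
  -- positivity of the determinant
  have him : (τ' : ℂ).im * Complex.normSq t = ((a * d - b * c : ℤ) : ℝ) * (τ : ℂ).im := by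
    have e1 : (τ' : ℂ) * (t * (starRingEnd ℂ) t) = ((a : ℂ) * τ + b) * (starRingEnd ℂ) t := by
      rw [hab2]; ring
    rw [Complex.mul_conj] at e1
    have e2 := congrArg Complex.im e1
    rw [← hcd2] at e2 ⊢
    simp only [Complex.mul_im, Complex.ofReal_re, Complex.ofReal_im, Complex.add_re,
      Complex.add_im, Complex.intCast_re, Complex.intCast_im, Complex.mul_re, Complex.conj_re,
      Complex.conj_im] at e2 ⊢
    push_cast
    linear_combination e2
  have hpos : a * d - b * c = 1 := by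
    rcases hdet' with h | h
    · exact h
    · exfalso
      rw [h] at him
      have p1 : 0 < (τ' : ℂ).im * Complex.normSq t :=
        mul_pos τ'.im_pos (Complex.normSq_pos.mpr ht)
      have p2 : 0 < (τ : ℂ).im := τ.im_pos
      rw [him] at p1
      push_cast at p1
      linarith
  let γ : SL(2, ℤ) := ⟨!![a, b; c, d], by rw [Matrix.det_fin_two_of]; exact hpos⟩
  refine ⟨γ, ?_⟩
  apply UpperHalfPlane.ext
  rw [UpperHalfPlane.specialLinearGroup_apply]
  have e1 : γ 0 0 = a := rfl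
  have e2 : γ 0 1 = b := rfl
  have e3 : γ 1 0 = c := rfl
  have e4 : γ 1 1 = d := rfl
  simp only [e1, e2, e3, e4, algebraMap_int_eq, eq_intCast, Complex.ofReal_intCast]
  rw [hab2, hcd2, mul_div_cancel_left₀ _ ht]

/-- The `j`-invariant (written without division) separates `SL₂(ℤ)`-orbits. -/
theorem exists_smul_eq_of_j_eq {τ τ' : ℍ}
    (h : E₄ τ' ^ 3 * discriminant τ = E₄ τ ^ 3 * discriminant τ') :
    ∃ γ : SL(2, ℤ), γ • τ = τ' := by
  have hΔ : discriminant τ ≠ 0 := discriminant_ne_zero τ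
  have hΔ' : discriminant τ' ≠ 0 := discriminant_ne_zero τ'
  obtain ⟨t, ht⟩ := IsAlgClosed.exists_pow_nat_eq (discriminant τ' / discriminant τ)
    (n := 12) (by norm_num)
  have ht0 : t ≠ 0 := by
    rintro rfl
    rw [zero_pow (by norm_num)] at ht
    exact div_ne_zero hΔ' hΔ ht.symm
  have hΔt : discriminant τ' = t ^ 12 * discriminant τ := by
    rw [ht]; field_simp
  have h4 : E₄ τ' ^ 3 = (t ^ 4 * E₄ τ) ^ 3 := by
    rw [hΔt] at h
    have : (E₄ τ' ^ 3 - (t ^ 4 * E₄ τ) ^ 3) * discriminant τ = 0 := by linear_combination h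
    rcases mul_eq_zero.mp this with h | h
    · exact sub_eq_zero.mp h
    · exact absurd h hΔ
  have h6 : E₆ τ' ^ 2 = (t ^ 6 * E₆ τ) ^ 2 := by
    have e1 := discriminant_eq_E₄_cube_sub_E₆_sq τ'
    have e2 := discriminant_eq_E₄_cube_sub_E₆_sq τ
    rw [e1, e2] at hΔt
    linear_combination h4 - 1728 * hΔt
  -- extract cube root of unity
  obtain ⟨ζ, hζ, hζ4⟩ : ∃ ζ : ℂ, ζ ^ 3 = 1 ∧ E₄ τ' = ζ * (t ^ 4 * E₄ τ) := by
    by_cases h0 : t ^ 4 * E₄ τ = 0
    · refine ⟨1, one_pow _, ?_⟩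
      rw [h0, zero_pow (by norm_num)] at h4
      rw [h0, mul_zero]
      exact pow_eq_zero_iff (by norm_num) |>.mp h4
    · refine ⟨E₄ τ' / (t ^ 4 * E₄ τ), ?_, ?_⟩
      · rw [div_pow, h4, div_self (pow_ne_zero _ h0)]
      · rw [div_mul_cancel₀ _ h0]
  rcases sq_eq_sq_iff_eq_or_eq_neg.mp h6 with h6' | h6'
  · refine exists_smul_eq_of_scale (t := ζ * t) (mul_ne_zero ?_ ht0) ?_ ?_
    · rintro rfl
      norm_num at hζ
    · rw [hζ4]; linear_combination -(ζ * t ^ 4 * E₄ τ) * hζ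
    · rw [h6']; linear_combination -(t ^ 6 * E₆ τ) * (ζ ^ 3 + 1) * hζ
  · refine exists_smul_eq_of_scale (t := ζ * t * Complex.I) (mul_ne_zero (mul_ne_zero ?_ ht0)
      Complex.I_ne_zero) ?_ ?_
    · rintro rfl
      norm_num at hζ
    · have hI : Complex.I ^ 4 = 1 := Complex.I_pow_four
      rw [hζ4, mul_pow, hI]; linear_combination -(ζ * t ^ 4 * E₄ τ) * hζ
    · have hI : Complex.I ^ 6 = -1 := by
        rw [show (6 : ℕ) = 4 + 2 from rfl, pow_add, Complex.I_pow_four, Complex.I_sq, one_mul]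
      rw [h6', mul_pow, hI]; linear_combination (t ^ 6 * E₆ τ) * (ζ ^ 3 + 1) * hζ

end Fermat.Agent.JInv
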