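import Mathlib

set_option autoImplicit false

/-!
# Ramanujan's identities and simple zeros of level one forms
-/

open UpperHalfPlane hiding I
open Complex ModularForm ModularFormClass MatrixGroups EisensteinSeries Filter Topology Derivative
open scoped Manifold

noncomputable section

namespace Fermat.Agent.JInv

/-- `D F → 0` at `i∞` for bounded holomorphic `F`. -/
lemma tendsto_D_zero {F : ℍ → ℂ} (hF : MDiff F) (hb : IsBoundedAtImInfty F) :
    Tendsto (normalizedDerivOfComplex F) atImInfty (𝓝 0) := by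
  rw [isBoundedAtImInfty_iff] at hb
  obtain ⟨M, A, hMA⟩ := hb
  rw [UpperHalfPlane.mdifferentiable_iff] at hF
  -- Cauchy estimate
  have key : ∀ z : ℍ, 2 * max A 1 ≤ z.im →
      ‖deriv (F ∘ ofComplex) z‖ ≤ |M| / (z.im / 2) := by
    intro z hz
    have hz1 : 1 ≤ max A 1 := le_max_right _ _
    have hzA : A ≤ max A 1 := le_max_left _ _
    have him : ∀ w : ℂ, w ∈ Metric.closedBall (z : ℂ) (z.im / 2) → z.im / 2 ≤ w.im := by
      intro w hw
      rw [Metric.mem_closedBall, dist_eq_norm] at hw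
      have h1 : |(w - z).im| ≤ ‖w - z‖ := Complex.abs_im_le_norm _
      have h2 : (w - z).im = w.im - z.im := by simp
      rw [h2] at h1
      have h3 := (abs_le.mp (h1.trans hw)).1
      linarith
    have hpos : 0 < z.im / 2 := by have := z.im_pos; linarith
    refine Complex.norm_deriv_le_of_forall_mem_sphere_norm_le hpos ?_ ?_
    · refine (hF.mono ?_).diffContOnCl
      intro w hw
      have := him w (Metric.closure_ball_subset_closedBall hw)
      show 0 < w.im
      linarith
    · intro w hw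
      have h1 := him w (Metric.sphere_subset_closedBall hw)
      have h2 : 0 < w.im := by linarith
      rw [Function.comp_apply, ofComplex_apply_of_im_pos h2]
      exact (hMA _ (by show A ≤ w.im; linarith)).trans (le_abs_self M)
  have hlim : Tendsto (fun z : ℍ => |M| / (z.im / 2)) atImInfty (𝓝 0) := by
    have h1 : Tendsto (fun z : ℍ => z.im / 2) atImInfty atTop :=
      (tendsto_comap (f := UpperHalfPlane.im) (x := atTop)).atTop_div_const (by norm_num)
    exact h1.const_div_atTop _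
  have hD : Tendsto (fun z : ℍ => deriv (F ∘ ofComplex) z) atImInfty (𝓝 0) := by
    refine squeeze_zero_norm' ?_ hlim
    have : ∀ᶠ z : ℍ in atImInfty, 2 * max A 1 ≤ z.im :=
      (tendsto_comap (f := UpperHalfPlane.im) (x := atTop)).eventually (eventually_ge_atTop _)
    filter_upwards [this] with z hz using key z hz
  have := hD.const_mul ((2 * (Real.pi : ℂ) * I)⁻¹)
  rw [mul_zero] at this
  exact this

lemma tendsto_cuspFunction_zero {f : ℍ → ℂ} (hper : Function.Periodic (f ∘ ofComplex) 1)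
    (hhol : MDiff f) (hb : IsBoundedAtImInfty f) :
    Tendsto f atImInfty (𝓝 (cuspFunction 1 f 0)) := by
  have hper' : Function.Periodic (f ∘ ofComplex) ((1 : ℝ) : ℂ) := by simpa using hper
  have ha := analyticAt_cuspFunction_zero one_pos hper' hhol hb
  have h2 : (cuspFunction 1 f ∘ fun τ : ℍ ↦ Function.Periodic.qParam 1 τ) = f := by
    funext τ
    simpa using eq_cuspFunction τ one_ne_zero hper'
  have h3 := ha.continuousAt.tendsto.comp (qParam_tendsto_atImInfty one_pos)
  rw [h2] at h3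
  exact h3

lemma tendsto_coeff_zero {f : ℍ → ℂ} (hper : Function.Periodic (f ∘ ofComplex) 1)
    (hhol : MDiff f) (hb : IsBoundedAtImInfty f) :
    Tendsto f atImInfty (𝓝 ((qExpansion 1 f).coeff 0)) := by
  have hper' : Function.Periodic (f ∘ ofComplex) ((1 : ℝ) : ℂ) := by simpa using hper
  have ha := analyticAt_cuspFunction_zero one_pos hper' hhol hb
  have h1 : (qExpansion 1 f).coeff 0 = cuspFunction 1 f 0 := by
    rw [UpperHalfPlane.qExpansion_coeff_zero one_pos ha hper',
      UpperHalfPlane.cuspFunction_apply_zero one_pos ha hper']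
  rw [h1]
  exact tendsto_cuspFunction_zero hper hhol hb

lemma tendsto_form (k : ℤ) (f : ModularForm 𝒮ℒ k) :
    Tendsto f atImInfty (𝓝 ((qExpansion 1 f).coeff 0)) := by
  refine tendsto_coeff_zero ?_ f.holo' (ModularFormClass.bdd_at_infty f)
  simpa using SlashInvariantFormClass.periodic_comp_ofComplex f one_mem_strictPeriods_SL

lemma E2_vadd_one (z : ℍ) : E2 ((1 : ℝ) +ᵥ z) = E2 z := by
  have hq : cexp (2 * Real.pi * I * (((1 : ℝ) +ᵥ z : ℍ) : ℂ)) = cexp (2 * Real.pi * I * z) := by
    rw [UpperHalfPlane.coe_vadd, Complex.ofReal_one, mul_add, mul_one, Complex.exp_add,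
      Complex.exp_two_pi_mul_I, one_mul]
  rw [E2_eq_tsum_cexp, E2_eq_tsum_cexp, hq]

lemma E2_periodic : Function.Periodic (E2 ∘ ofComplex) 1 := by
  intro w
  by_cases! hw : 0 < w.im
  · have : 0 < (w + 1).im := by simp [hw]
    simp only [Function.comp_apply, ofComplex_apply_of_im_pos this, ofComplex_apply_of_im_pos hw]
    rw [← E2_vadd_one ⟨w, hw⟩]
    congr 1
    ext
    simp [add_comm]
  · have : (w + 1).im ≤ 0 := by simpa using hw
    simp [ofComplex_apply_of_im_nonpos this, ofComplex_apply_of_im_nonpos hw]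

lemma tendsto_E2 : Tendsto E2 atImInfty (𝓝 1) := by
  have h := tendsto_cuspFunction_zero E2_periodic E2_mdifferentiable isBoundedAtImInfty_E2
  have hper' : Function.Periodic (E2 ∘ ofComplex) ((1 : ℝ) : ℂ) := by simpa using E2_periodic
  have ha := analyticAt_cuspFunction_zero one_pos hper' E2_mdifferentiable
    isBoundedAtImInfty_E2
  have h1 := hasFPowerSeriesOnBall_cuspFunction one_pos ha
    (c := fun m => (if m = 0 then 1 else -24 * ArithmeticFunction.sigma 1 m : ℂ)) (fun τ => by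
      simpa only [Function.Periodic.qParam, ofReal_one, div_one] using
        hasSum_qExpansion_E2 τ)
  have h2 := h1.coeff_zero (fun _ => 0)
  have h3 : cuspFunction 1 E2 0 = 1 := by
    rw [← h2]
    simp
  rwa [h3] at h

lemma serreDerivative_bounded (k : ℂ) {F : ℍ → ℂ} (hF : MDiff F) (hb : IsBoundedAtImInfty F) :
    IsBoundedAtImInfty (serreDerivative k F) := by
  have h1 : IsBoundedAtImInfty (normalizedDerivOfComplex F) :=
    (tendsto_D_zero hF hb).isBigO_one ℝ
  have h2 : IsBoundedAtImInfty (fun z => E2 z * F z) := isBoundedAtImInfty_E2.mul hb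
  have h3 : IsBoundedAtImInfty (fun z => (k * 12⁻¹) * (E2 z * F z)) :=
    Asymptotics.IsBigO.const_mul_left h2 _
  have h4 := Asymptotics.IsBigO.sub h1 h3
  have h5 : serreDerivative k F = fun z => normalizedDerivOfComplex F z -
      (k * 12⁻¹) * (E2 z * F z) := by
    funext z
    rw [serreDerivative_apply]
    ring
  rw [h5]
  exact h4

lemma slash_eq_SL {k : ℤ} (F : ModularForm 𝒮ℒ k) (γ : SL(2, ℤ)) : (F : ℍ → ℂ) ∣[k] γ = F := by
  rw [SL_slash]
  exact SlashInvariantForm.slash_action_eqn F _ ⟨γ, rfl⟩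

/-- The Serre derivative of a level one modular form. -/
def serreMF {k : ℤ} (F : ModularForm 𝒮ℒ k) : ModularForm 𝒮ℒ (k + 2) where
  toFun := serreDerivative k F
  slash_action_eq' γ hγ := by
    obtain ⟨g, rfl⟩ := hγ
    exact serreDerivative_slash_invariant F.holo' (slash_eq_SL F g)
  holo' := serreDerivative_mdifferentiable _ F.holo'
  bdd_at_cusps' {c} hc := by
    rw [Subgroup.IsArithmetic.isCusp_iff_isCusp_SL2Z] at hc
    rw [OnePoint.isBoundedAt_iff_forall_SL2Z hc]
    intro γ _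
    have h1 : serreDerivative (k : ℂ) F ∣[k + 2] γ = serreDerivative k F :=
      serreDerivative_slash_invariant F.holo' (slash_eq_SL F γ)
    rw [h1]
    exact serreDerivative_bounded _ F.holo' (ModularFormClass.bdd_at_infty F)

lemma serreMF_apply {k : ℤ} (F : ModularForm 𝒮ℒ k) (z : ℍ) :
    serreMF F z = serreDerivative k F z := rfl

lemma serreMF_coeff_zero {k : ℤ} (F : ModularForm 𝒮ℒ k) :
    (qExpansion 1 (serreMF F)).coeff 0 = - (k * 12⁻¹) * (qExpansion 1 F).coeff 0 := by
  have h1 := tendsto_form _ (serreMF F)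
  have h2 : Tendsto (serreDerivative k F) atImInfty
      (𝓝 (0 - k * 12⁻¹ * 1 * (qExpansion 1 F).coeff 0)) :=
    (tendsto_D_zero F.holo' (ModularFormClass.bdd_at_infty F)).sub
      ((tendsto_E2.const_mul _).mul (tendsto_form _ F))
  have h3 := tendsto_nhds_unique h1 h2
  rw [h3]
  ring

lemma eq_of_coeff_zero_eq {w : ℤ} (hw : w < 12) (F G : ModularForm 𝒮ℒ w)
    (h : (qExpansion 1 F).coeff 0 = (qExpansion 1 G).coeff 0) : F = G := by
  have hcusp : (qExpansion 1 (F - G : ModularForm 𝒮ℒ w)).coeff 0 = 0 := by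
    rw [FunLike.coe_sub, ModularForm.qExpansion_sub one_pos one_mem_strictPeriods_SL, map_sub, h,
      sub_self]
  have h0 := rank_zero_iff_forall_zero.mp (CuspForm.rank_eq_zero_of_weight_lt_twelve hw)
    (toCuspForm (F - G) hcusp)
  ext z
  have h1 : (toCuspForm (F - G) hcusp) z = 0 := by rw [h0]; rfl
  rw [toCuspForm_apply] at h1
  simpa [sub_eq_zero] using h1

/-- Ramanujan: `D E₄ - E₂ E₄ / 3 = - E₆ / 3`. -/
theorem serreDerivative_E4 (z : ℍ) : serreDerivative 4 E₄ z = - (1 / 3) * E₆ z := by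
  have h1 : serreMF E₄ = ModularForm.mcast (by norm_num) ((-(1 / 3) : ℂ) • E₆) := by
    refine eq_of_coeff_zero_eq (by norm_num) _ _ ?_
    rw [serreMF_coeff_zero, ModularForm.coe_mcast, FunLike.coe_smul,
      ModularForm.qExpansion_smul one_pos one_mem_strictPeriods_SL, PowerSeries.coeff_smul,
      E_qExpansion_coeff_zero _ ⟨2, rfl⟩, E_qExpansion_coeff_zero _ ⟨3, rfl⟩]
    norm_num
  have h2 := congrArg (fun F : ModularForm 𝒮ℒ (4 + 2) => F z) h1
  simp only [serreMF_apply] at h2
  rw [ModularForm.coe_mcast] at h2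
  simpa using h2

/-- Ramanujan: `D E₆ - E₂ E₆ / 2 = - E₄² / 2`. -/
theorem serreDerivative_E6 (z : ℍ) : serreDerivative 6 E₆ z = - (1 / 2) * E₄ z ^ 2 := by
  have h1 : serreMF E₆ = ModularForm.mcast (by norm_num) ((-(1 / 2) : ℂ) • (E₄.mul E₄)) := by
    refine eq_of_coeff_zero_eq (by norm_num) _ _ ?_
    have h4 := E_qExpansion_coeff_zero (by norm_num : 3 ≤ 4) (⟨2, rfl⟩ : Even 4)
    rw [serreMF_coeff_zero, ModularForm.coe_mcast, FunLike.coe_smul,
      ModularForm.qExpansion_smul one_pos one_mem_strictPeriods_SL, PowerSeries.coeff_smul,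
      E_qExpansion_coeff_zero _ ⟨3, rfl⟩,
      ModularForm.qExpansion_mul one_pos one_mem_strictPeriods_SL]
    simp only [PowerSeries.coeff_zero_eq_constantCoeff] at h4 ⊢
    rw [map_mul, h4]
    norm_num
  have h2 := congrArg (fun F : ModularForm 𝒮ℒ (6 + 2) => F z) h1
  simp only [serreMF_apply] at h2
  rw [ModularForm.coe_mcast] at h2
  have h3 : serreDerivative ((6 : ℤ) : ℂ) E₆ z = -(1 / 2) * (E₄ z * E₄ z) := by
    rw [h2]; rfl
  rw [show (6 : ℂ) = ((6 : ℤ) : ℂ) by norm_num, h3]
  ring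

/-- Ramanujan: `D Δ = E₂ Δ`. -/
theorem serreDerivative_discriminant (z : ℍ) : serreDerivative 12 discriminant z = 0 := by
  have hΔ : discriminant = (1 / 1728 : ℂ) • ((E₄ : ℍ → ℂ) * E₄ * E₄ - (E₆ : ℍ → ℂ) * E₆) := by
    funext w
    rw [discriminant_eq_E₄_cube_sub_E₆_sq w]
    simp only [Pi.smul_apply, Pi.sub_apply, Pi.mul_apply, smul_eq_mul]
    ring
  have m4 : MDiff (E₄ : ℍ → ℂ) := E₄.holo'
  have m6 : MDiff (E₆ : ℍ → ℂ) := E₆.holo'
  have e1 : serreDerivative 8 ((E₄ : ℍ → ℂ) * E₄) = serreDerivative 4 E₄ * E₄ +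
      E₄ * serreDerivative 4 E₄ := by
    have := serreDerivative_mul 4 4 E₄ E₄ m4 m4
    rwa [show (4 : ℂ) + 4 = 8 by norm_num] at this
  have e2 : serreDerivative 12 ((E₄ : ℍ → ℂ) * E₄ * E₄) = serreDerivative 8 (E₄ * E₄) * E₄ +
      E₄ * E₄ * serreDerivative 4 E₄ := by
    have := serreDerivative_mul 8 4 (E₄ * E₄) E₄ (m4.mul m4) m4
    rwa [show (8 : ℂ) + 4 = 12 by norm_num] at this
  have e3 : serreDerivative 12 ((E₆ : ℍ → ℂ) * E₆) = serreDerivative 6 E₆ * E₆ +
      E₆ * serreDerivative 6 E₆ := by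
    have := serreDerivative_mul 6 6 E₆ E₆ m6 m6
    rwa [show (6 : ℂ) + 6 = 12 by norm_num] at this
  rw [hΔ, serreDerivative_smul _ _ _ (((m4.mul m4).mul m4).sub (m6.mul m6)),
    serreDerivative_sub _ _ _ ((m4.mul m4).mul m4) (m6.mul m6), e2, e1, e3]
  simp only [Pi.smul_apply, Pi.sub_apply, Pi.add_apply, Pi.mul_apply, serreDerivative_E4,
    serreDerivative_E6, smul_eq_mul]
  ring

end Fermat.Agent.JInv
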