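import Mathlib
import Fermat.Agent.JInv.Inj
import Fermat.Agent.JInv.Ramanujan

set_option autoImplicit false

/-!
# Zeros of `E₄`, `E₆` and `E₄³ - a Δ`
-/

open UpperHalfPlane hiding I
open Complex ModularForm ModularFormClass MatrixGroups EisensteinSeries Filter Topology Derivative
open scoped Manifold

noncomputable section

namespace Fermat.Agent.JInv

/-- Division of holomorphic functions on an open subset of `ℂ` by a function with simple zeros. -/
lemma exists_differentiableOn_div {U : Set ℂ} (hU : IsOpen U) {p g : ℂ → ℂ}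
    (hp : DifferentiableOn ℂ p U) (hg : DifferentiableOn ℂ g U)
    (hsimple : ∀ z ∈ U, p z = 0 → deriv p z ≠ 0) (hvan : ∀ z ∈ U, p z = 0 → g z = 0) :
    ∃ h : ℂ → ℂ, DifferentiableOn ℂ h U ∧ ∀ z ∈ U, g z = p z * h z := by
  classical
  let h : ℂ → ℂ := fun z => if p z = 0 then deriv g z / deriv p z else g z / p z
  refine ⟨h, ?_, ?_⟩
  · intro z₀ hz₀
    refine DifferentiableAt.differentiableWithinAt ?_
    have hUz := hU.mem_nhds hz₀
    by_cases hz : p z₀ = 0
    · have hg0 : g z₀ = 0 := hvan z₀ hz₀ hz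
      have hd : deriv p z₀ ≠ 0 := hsimple z₀ hz₀ hz
      have hps : DifferentiableAt ℂ (dslope p z₀) z₀ :=
        ((Complex.differentiableOn_dslope hUz).mpr hp).differentiableAt hUz
      have hgs : DifferentiableAt ℂ (dslope g z₀) z₀ :=
        ((Complex.differentiableOn_dslope hUz).mpr hg).differentiableAt hUz
      have hne : dslope p z₀ z₀ ≠ 0 := by rwa [dslope_same]
      have hq : DifferentiableAt ℂ (fun z => dslope g z₀ z / dslope p z₀ z) z₀ :=
        hgs.div hps hne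
      refine hq.congr_of_eventuallyEq ?_
      have hne' : ∀ᶠ z in 𝓝 z₀, dslope p z₀ z ≠ 0 := hps.continuousAt.eventually_ne hne
      filter_upwards [hne'] with z hz1
      rcases eq_or_ne z z₀ with rfl | hzz
      · simp only [h, if_pos hz, dslope_same]
      · rw [dslope_of_ne _ hzz, slope_def_field, hz, sub_zero] at hz1
        have hpz : p z ≠ 0 := fun h0 => hz1 (by rw [h0, zero_div])
        simp only [h, if_neg hpz]
        rw [dslope_of_ne _ hzz, dslope_of_ne _ hzz, slope_def_field, slope_def_field, hz, hg0,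
          sub_zero, sub_zero]
        have : z - z₀ ≠ 0 := sub_ne_zero.mpr hzz
        field_simp
    · have hp' : DifferentiableAt ℂ p z₀ := hp.differentiableAt hUz
      have hg' : DifferentiableAt ℂ g z₀ := hg.differentiableAt hUz
      refine (hg'.div hp' hz).congr_of_eventuallyEq ?_
      filter_upwards [hp'.continuousAt.eventually_ne hz] with z hz1
      simp only [h, if_neg hz1, Pi.div_apply]
  · intro z hz
    by_cases h0 : p z = 0
    · rw [hvan z hz h0, h0, zero_mul]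
    · simp only [h, if_neg h0]
      field_simp

/-- Division of holomorphic functions on `ℍ` by a function with simple zeros. -/
lemma exists_holo_div {P G : ℍ → ℂ} (hP : MDiff P) (hG : MDiff G)
    (hsimple : ∀ τ, P τ = 0 → normalizedDerivOfComplex P τ ≠ 0)
    (hvan : ∀ τ, P τ = 0 → G τ = 0) :
    ∃ H : ℍ → ℂ, MDiff H ∧ ∀ τ, G τ = P τ * H τ := by
  rw [UpperHalfPlane.mdifferentiable_iff] at hP hG
  have hcoe : ∀ (F : ℍ → ℂ) (z : ℂ) (hz : z ∈ upperHalfPlaneSet),
      (F ∘ ofComplex) z = F ⟨z, hz⟩ := fun F z hz => by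
    rw [Function.comp_apply, ofComplex_apply_of_im_pos hz]
  obtain ⟨h, hh, hgh⟩ := exists_differentiableOn_div isOpen_upperHalfPlaneSet hP hG
    (fun z hz h0 => by
      rw [hcoe P z hz] at h0
      have h1 := hsimple ⟨z, hz⟩ h0
      intro h2
      apply h1
      rw [normalizedDerivOfComplex]
      exact mul_eq_zero_of_right _ h2)
    (fun z hz h0 => by
      rw [hcoe P z hz] at h0
      rw [hcoe G z hz]
      exact hvan _ h0)
  refine ⟨fun τ => h τ, ?_, fun τ => ?_⟩
  · rw [UpperHalfPlane.mdifferentiable_iff]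
    refine hh.congr fun z hz => ?_
    rw [Function.comp_apply, ofComplex_apply_of_im_pos hz]
  · have := hgh τ τ.im_pos
    rwa [hcoe G _ τ.im_pos, hcoe P _ τ.im_pos] at this

/-- Cancellation of a holomorphic function with simple zeros. -/
lemma cancel_of_simple {P A B : ℍ → ℂ} (hA : Continuous A) (hB : Continuous B)
    (hsimple : ∀ τ, P τ = 0 → normalizedDerivOfComplex P τ ≠ 0)
    (h : ∀ τ, P τ * A τ = P τ * B τ) : A = B := by
  have hd : Dense {τ : ℍ | P τ ≠ 0} := by
    intro τ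
    rw [mem_closure_iff_frequently]
    by_contra hcon
    rw [Filter.not_frequently] at hcon
    simp only [Set.mem_ofPred_eq, not_not] at hcon
    have h0 : P τ = 0 := hcon.self_of_nhds
    apply hsimple τ h0
    rw [normalizedDerivOfComplex]
    have h1 : (P ∘ ofComplex) =ᶠ[𝓝 (τ : ℂ)] fun _ => 0 := by
      have h2 := UpperHalfPlane.isOpenEmbedding_coe.map_nhds_eq τ
      rw [← h2, Filter.EventuallyEq, Filter.eventually_map]
      filter_upwards [hcon] with z hz
      rw [Function.comp_apply, ofComplex_apply, hz]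
    rw [h1.deriv_eq]
    simp
  refine Continuous.ext_on hd hA hB fun τ hτ => ?_
  exact mul_left_cancel₀ hτ (h τ)

/-! ### The three types of level one forms with simple zeros -/

lemma E4_E6_ne_zero (z : ℍ) : ¬ (E₄ z = 0 ∧ E₆ z = 0) := by
  rintro ⟨h4, h6⟩
  have := discriminant_eq_E₄_cube_sub_E₆_sq z
  rw [h4, h6] at this
  exact discriminant_ne_zero z (by rw [this]; norm_num)

lemma E4_simple (z : ℍ) (hz : E₄ z = 0) : normalizedDerivOfComplex E₄ z ≠ 0 := by
  have h1 := serreDerivative_E4 z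
  rw [serreDerivative_apply, hz, mul_zero, sub_zero] at h1
  rw [h1]
  refine mul_ne_zero (by norm_num) fun h6 => E4_E6_ne_zero z ⟨hz, h6⟩

lemma E6_simple (z : ℍ) (hz : E₆ z = 0) : normalizedDerivOfComplex E₆ z ≠ 0 := by
  have h1 := serreDerivative_E6 z
  rw [serreDerivative_apply, hz, mul_zero, sub_zero] at h1
  rw [h1]
  refine mul_ne_zero (by norm_num) (pow_ne_zero _ fun h4 => E4_E6_ne_zero z ⟨h4, hz⟩)

/-- `E₄³ - a Δ` as a level one form of weight 12. -/
def pForm (a : ℂ) : ModularForm 𝒮ℒ 12 :=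
  ModularForm.mcast (by decide) (E₄.pow 3) - a • (CuspForm.discriminant : ModularForm 𝒮ℒ 12)

lemma pForm_apply (a : ℂ) (z : ℍ) : pForm a z = E₄ z ^ 3 - a * discriminant z := by
  simp only [pForm, sub_apply, ModularForm.coe_mcast, ModularForm.coe_pow,
    Pi.pow_apply]
  rfl

lemma serreDerivative_pForm (a : ℂ) (z : ℍ) :
    serreDerivative 12 (pForm a) z = - (E₄ z ^ 2 * E₆ z) := by
  have hp : (pForm a : ℍ → ℂ) = (E₄ : ℍ → ℂ) * E₄ * E₄ - a • discriminant := by
    funext w
    rw [pForm_apply]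
    simp only [Pi.sub_apply, Pi.mul_apply, Pi.smul_apply, smul_eq_mul]
    ring
  have m4 : MDiff (E₄ : ℍ → ℂ) := E₄.holo'
  have mΔ : MDiff discriminant := CuspForm.discriminant.holo'
  have e1 : serreDerivative 8 ((E₄ : ℍ → ℂ) * E₄) = serreDerivative 4 E₄ * E₄ +
      E₄ * serreDerivative 4 E₄ := by
    have := serreDerivative_mul 4 4 E₄ E₄ m4 m4
    rwa [show (4 : ℂ) + 4 = 8 by norm_num] at this
  have e2 : serreDerivative 12 ((E₄ : ℍ → ℂ) * E₄ * E₄) = serreDerivative 8 (E₄ * E₄) * E₄ +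
      E₄ * E₄ * serreDerivative 4 E₄ := by
    have := serreDerivative_mul 8 4 (E₄ * E₄) E₄ (m4.mul m4) m4
    rwa [show (8 : ℂ) + 4 = 12 by norm_num] at this
  have maΔ : MDiff (a • discriminant) := (a • CuspForm.discriminant).holo'
  rw [hp, serreDerivative_sub _ _ _ ((m4.mul m4).mul m4) maΔ, e2, e1,
    serreDerivative_smul _ _ _ mΔ]
  simp only [Pi.smul_apply, Pi.sub_apply, Pi.add_apply, Pi.mul_apply, serreDerivative_E4,
    serreDerivative_discriminant, smul_eq_mul]
  ring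

lemma pForm_simple {a : ℂ} (h0 : a ≠ 0) (h1 : a ≠ 1728) (z : ℍ) (hz : pForm a z = 0) :
    normalizedDerivOfComplex (pForm a) z ≠ 0 := by
  have h2 := serreDerivative_pForm a z
  rw [serreDerivative_apply, hz, mul_zero, sub_zero] at h2
  rw [h2]
  rw [pForm_apply] at hz
  have hΔ := discriminant_ne_zero z
  have h4 : E₄ z ≠ 0 := by
    intro h4
    rw [h4] at hz
    have : a * discriminant z = 0 := by linear_combination -hz
    exact (mul_ne_zero h0 hΔ) this
  have h6 : E₆ z ≠ 0 := by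
    intro h6
    have e := discriminant_eq_E₄_cube_sub_E₆_sq z
    rw [h6] at e
    have : (a - 1728) * discriminant z = 0 := by linear_combination -hz - 1728 * e
    exact (mul_ne_zero (sub_ne_zero.mpr h1) hΔ) this
  exact neg_ne_zero.mpr (mul_ne_zero (pow_ne_zero _ h4) h6)

/-- For each `τ`, the form `E₄³ - j(τ) Δ`. -/
lemma exists_pForm_zero (τ : ℍ) : pForm (E₄ τ ^ 3 / discriminant τ) τ = 0 := by
  rw [pForm_apply, div_mul_cancel₀ _ (discriminant_ne_zero τ), sub_self]

lemma pForm_zero_orbit {a : ℂ} {τ τ' : ℍ} (h : pForm a τ = 0) (h' : pForm a τ' = 0) :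
    ∃ γ : SL(2, ℤ), γ • τ = τ' := by
  rw [pForm_apply] at h h'
  refine exists_smul_eq_of_j_eq ?_
  linear_combination discriminant τ * h' - discriminant τ' * h

lemma E4_zero_orbit {τ τ' : ℍ} (h : E₄ τ = 0) (h' : E₄ τ' = 0) :
    ∃ γ : SL(2, ℤ), γ • τ = τ' := by
  refine exists_smul_eq_of_j_eq ?_
  rw [h, h']; ring

lemma E6_zero_orbit {τ τ' : ℍ} (h : E₆ τ = 0) (h' : E₆ τ' = 0) :
    ∃ γ : SL(2, ℤ), γ • τ = τ' := by
  refine exists_smul_eq_of_j_eq ?_
  rw [discriminant_eq_E₄_cube_sub_E₆_sq, discriminant_eq_E₄_cube_sub_E₆_sq, h, h']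
  ring

lemma form_smul {k : ℤ} (F : ModularForm 𝒮ℒ k) (γ : SL(2, ℤ)) (τ : ℍ) :
    F (γ • τ) = denom γ τ ^ k * F τ := by
  have hγ : (γ : GL (Fin 2) ℝ) ∈ 𝒮ℒ := ⟨γ, rfl⟩
  exact SlashInvariantForm.slash_action_eqn'' F hγ τ

lemma form_smul_eq_zero_iff {k : ℤ} (F : ModularForm 𝒮ℒ k) (γ : SL(2, ℤ)) (τ : ℍ) :
    F (γ • τ) = 0 ↔ F τ = 0 := by
  rw [form_smul, mul_eq_zero, or_iff_right]
  exact zpow_ne_zero _ (denom_ne_zero _ _)

lemma denom_eq (γ : SL(2, ℤ)) (τ : ℍ) : denom γ τ = (γ 1 0 : ℂ) * τ + γ 1 1 := by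
  exact ModularGroup.denom_apply γ τ

/-- `E₆` vanishes at `i`. -/
lemma E6_I : E₆ UpperHalfPlane.I = 0 := by
  have h := form_smul E₆ ModularGroup.S UpperHalfPlane.I
  have h1 : ModularGroup.S • UpperHalfPlane.I = UpperHalfPlane.I := by
    ext
    rw [modular_S_smul]
    simp
  have h2 : denom (ModularGroup.S : SL(2, ℤ)) UpperHalfPlane.I = Complex.I := by
    rw [denom_eq]
    simp [ModularGroup.S]
  rw [h1, h2] at h
  have h3 : (Complex.I : ℂ) ^ (6 : ℤ) = -1 := by
    rw [show (6 : ℤ) = ((6 : ℕ) : ℤ) from rfl, zpow_natCast,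
      show (6 : ℕ) = 4 + 2 from rfl, pow_add, Complex.I_pow_four, Complex.I_sq, one_mul]
  rw [h3] at h
  have : (2 : ℂ) * E₆ UpperHalfPlane.I = 0 := by linear_combination h
  simpa using this

lemma E6_eq_zero_iff (τ : ℍ) : E₆ τ = 0 ↔ ∃ γ : SL(2, ℤ), γ • UpperHalfPlane.I = τ := by
  constructor
  · intro h
    exact E6_zero_orbit E6_I h
  · rintro ⟨γ, rfl⟩
    rw [form_smul_eq_zero_iff]
    exact E6_I

/-- The point `ρ = (-1 + √-3) / 2`. -/
def rho : ℍ := ⟨⟨-1 / 2, √3 / 2⟩, by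
  show (0 : ℝ) < √3 / 2
  positivity⟩

lemma rho_sq : (rho : ℂ) ^ 2 + rho + 1 = 0 := by
  have h3 : (√3 : ℝ) * √3 = 3 := Real.mul_self_sqrt (by norm_num)
  have : (rho : ℂ) = ⟨-1 / 2, √3 / 2⟩ := rfl
  rw [this]
  apply Complex.ext
  · simp only [pow_two, Complex.add_re, Complex.mul_re, Complex.one_re, Complex.zero_re]
    nlinarith
  · simp only [pow_two, Complex.add_im, Complex.mul_im, Complex.one_im, Complex.zero_im]
    ring

/-- The order three (mod `±1`) element `z ↦ -(z+1)/z` fixing `ρ`. -/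
def gRho : SL(2, ℤ) := ⟨!![-1, -1; 1, 0], by simp⟩

lemma gRho_smul : gRho • rho = rho := by
  apply UpperHalfPlane.ext
  rw [UpperHalfPlane.specialLinearGroup_apply]
  have e1 : gRho 0 0 = -1 := rfl
  have e2 : gRho 0 1 = -1 := rfl
  have e3 : gRho 1 0 = 1 := rfl
  have e4 : gRho 1 1 = 0 := rfl
  have hρ := rho_sq
  have hρ0 : (rho : ℂ) ≠ 0 := rho.ne_zero
  simp only [e1, e2, e3, e4, algebraMap_int_eq, eq_intCast, Complex.ofReal_intCast]
  push_cast
  rw [div_eq_iff (by simpa using hρ0)]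
  linear_combination -hρ

lemma denom_gRho : denom gRho rho = rho := by
  rw [denom_eq]
  have e3 : gRho 1 0 = 1 := rfl
  have e4 : gRho 1 1 = 0 := rfl
  rw [e3, e4]
  simp

/-- `E₄` vanishes at `ρ`. -/
lemma E4_rho : E₄ rho = 0 := by
  have hρ := rho_sq
  have h := form_smul E₄ gRho rho
  rw [gRho_smul, denom_gRho] at h
  have h4 : (rho : ℂ) ^ (4 : ℤ) = rho := by
    rw [show (4 : ℤ) = ((4 : ℕ) : ℤ) from rfl, zpow_natCast]
    linear_combination (rho : ℂ) * (rho - 1) * hρ
  rw [h4] at h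
  have h5 : ((rho : ℂ) - 1) * E₄ rho = 0 := by linear_combination -h
  rcases mul_eq_zero.mp h5 with h6 | h6
  · exfalso
    have : (rho : ℂ) = 1 := by linear_combination h6
    rw [this] at hρ
    norm_num at hρ
  · exact h6

lemma E4_eq_zero_iff (τ : ℍ) : E₄ τ = 0 ↔ ∃ γ : SL(2, ℤ), γ • rho = τ := by
  constructor
  · intro h
    exact E4_zero_orbit E4_rho h
  · rintro ⟨γ, rfl⟩
    rw [form_smul_eq_zero_iff]
    exact E4_rho

end Fermat.Agent.JInv
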