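import Mathlib
import Fermat.Agent.JInv.Zeros

set_option autoImplicit false

/-!
# The `j`-function: surjectivity, orders, stabilizers
-/

open UpperHalfPlane hiding I
open Complex ModularForm ModularFormClass MatrixGroups EisensteinSeries Filter Topology Derivative
open scoped Manifold

noncomputable section

namespace Fermat.Agent.JInv

/-- The `j`-invariant `E₄³ / Δ = q⁻¹ + 744 + ...`. -/
def jInv (τ : ℍ) : ℂ := E₄ τ ^ 3 / discriminant τ

lemma jInv_eq_iff_pForm {a : ℂ} {τ : ℍ} : jInv τ = a ↔ pForm a τ = 0 := by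
  rw [jInv, div_eq_iff (discriminant_ne_zero τ), pForm_apply, sub_eq_zero]

lemma jInv_smul (γ : SL(2, ℤ)) (τ : ℍ) : jInv (γ • τ) = jInv τ := by
  rw [jInv_eq_iff_pForm, form_smul_eq_zero_iff, ← jInv_eq_iff_pForm]

theorem jInv_eq_iff {τ τ' : ℍ} : jInv τ = jInv τ' ↔ ∃ γ : SL(2, ℤ), γ • τ = τ' := by
  constructor
  · intro h
    exact pForm_zero_orbit (jInv_eq_iff_pForm.mp rfl) (jInv_eq_iff_pForm.mp h.symm)
  · rintro ⟨γ, rfl⟩
    exact (jInv_smul γ τ).symm

lemma jInv_rho : jInv rho = 0 := by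
  rw [jInv, E4_rho]; simp

lemma jInv_I : jInv UpperHalfPlane.I = 1728 := by
  have h := discriminant_eq_E₄_cube_sub_E₆_sq UpperHalfPlane.I
  rw [E6_I] at h
  rw [jInv, div_eq_iff (discriminant_ne_zero _)]
  linear_combination -1728 * h

lemma jInv_sub_1728 (τ : ℍ) : jInv τ - 1728 = E₆ τ ^ 2 / discriminant τ := by
  have h := discriminant_eq_E₄_cube_sub_E₆_sq τ
  have hΔ := discriminant_ne_zero τ
  rw [jInv]
  field_simp
  linear_combination -1728 * h

lemma pForm_coeff_zero (a : ℂ) : (qExpansion 1 (pForm a)).coeff 0 = 1 := by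
  have h := tendsto_form _ (pForm a)
  have h4 : Tendsto (E₄ : ℍ → ℂ) atImInfty (𝓝 1) := by
    have := tendsto_form _ E₄
    rwa [E_qExpansion_coeff_zero (by norm_num : 3 ≤ 4) (⟨2, rfl⟩ : Even 4)] at this
  have hΔ : Tendsto discriminant atImInfty (𝓝 0) := discriminant_isZeroAtImInfty
  have h2 : Tendsto (pForm a : ℍ → ℂ) atImInfty (𝓝 (1 ^ 3 - a * 0)) := by
    have : (pForm a : ℍ → ℂ) = fun z => E₄ z ^ 3 - a * discriminant z := by
      funext z; exact pForm_apply a z
    rw [this]
    exact (h4.pow 3).sub (hΔ.const_mul a)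
  have := tendsto_nhds_unique h h2
  rw [this]; ring

/-- Surjectivity of `j`. -/
theorem jInv_surjective : Function.Surjective jInv := by
  intro a
  by_contra hcon
  push Not at hcon
  have hne : ∀ τ, pForm a τ ≠ 0 := fun τ h => hcon τ (jInv_eq_iff_pForm.mpr h)
  -- `Δ / pForm a` is a cusp form of weight zero
  have hlim : Tendsto (pForm a : ℍ → ℂ) atImInfty (𝓝 1) := by
    have := tendsto_form _ (pForm a)
    rwa [pForm_coeff_zero] at this
  have hslash : ∀ γ : SL(2, ℤ), (fun z => (discriminant z) / (pForm a z)) ∣[(0 : ℤ)] γ =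
      fun z => (discriminant z) / (pForm a z) := by
    intro γ
    change (⇑CuspForm.discriminant / ⇑(pForm a)) ∣[((12 : ℤ) - 12)] γ =
      ⇑CuspForm.discriminant / ⇑(pForm a)
    have hγ : (γ : GL (Fin 2) ℝ) ∈ 𝒮ℒ := ⟨γ, rfl⟩
    simp_rw [div_slash_SL2, SL_slash, SlashInvariantForm.slash_action_eqn _ _ hγ]
  have hz : Tendsto (fun z => (discriminant z) / (pForm a z)) atImInfty (𝓝 0) := by
    have hΔ : Tendsto discriminant atImInfty (𝓝 0) := discriminant_isZeroAtImInfty
    have := hΔ.div hlim one_ne_zero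
    rwa [zero_div] at this
  let f : ModularForm 𝒮ℒ 0 :=
    { toFun := fun z => (discriminant z) / (pForm a z)
      slash_action_eq' := fun _ ⟨γ, hγ⟩ ↦ hγ ▸ hslash γ
      holo' := CuspForm.discriminant.holo'.div (pForm a).holo' hne
      bdd_at_cusps' := by
        intro c hc
        rw [Subgroup.IsArithmetic.isCusp_iff_isCusp_SL2Z] at hc
        rw [OnePoint.isBoundedAt_iff_forall_SL2Z hc]
        intro γ _
        rw [hslash γ]
        exact hz.isBigO_one ℝ }
  obtain ⟨c, hc⟩ := levelOne_weight_zero_const (F := ModularForm 𝒮ℒ (0 : ℤ)) f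
  have hc' : ∀ z, discriminant z / pForm a z = c := fun z => congr_fun hc z
  have hc0 : c = 0 := by
    have h1 : Tendsto (fun z : ℍ => (discriminant z) / (pForm a z)) atImInfty (𝓝 c) := by
      have : (fun z : ℍ => (discriminant z) / (pForm a z)) = fun _ => c := by
        funext z; exact hc' z
      rw [this]
      exact tendsto_const_nhds
    exact tendsto_nhds_unique h1 hz
  have := hc' UpperHalfPlane.I
  rw [hc0] at this
  exact (div_ne_zero (discriminant_ne_zero _) (hne _)) this

end Fermat.Agent.JInv
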