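import Mathlib
import Fermat.Agent.JInv.JFun

set_option autoImplicit false

/-!
# Local orders of `j` and stabilizers
-/

open UpperHalfPlane hiding I
open Complex ModularForm ModularFormClass MatrixGroups EisensteinSeries Filter Topology Derivative
open scoped Manifold

noncomputable section

namespace Fermat.Agent.JInv

lemma analyticAt_comp_ofComplex {F : ℍ → ℂ} (hF : MDiff F) (τ : ℍ) :
    AnalyticAt ℂ (F ∘ ofComplex) τ := by
  rw [UpperHalfPlane.mdifferentiable_iff] at hF
  exact hF.analyticAt (isOpen_upperHalfPlaneSet.mem_nhds τ.im_pos)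

lemma order_eq_one_of_simple {F : ℍ → ℂ} (hF : MDiff F) {τ : ℍ} (h0 : F τ = 0)
    (h1 : normalizedDerivOfComplex F τ ≠ 0) : analyticOrderAt (F ∘ ofComplex) τ = 1 := by
  refine (analyticAt_comp_ofComplex hF τ).analyticOrderAt_eq_one_of_zero_deriv_ne_zero ?_ ?_
  · rw [Function.comp_apply, ofComplex_apply, h0]
  · intro h2
    apply h1
    rw [normalizedDerivOfComplex, h2, mul_zero]

lemma order_eq_zero_of_ne {F : ℍ → ℂ} {τ : ℍ} (h0 : F τ ≠ 0) :
    analyticOrderAt (F ∘ ofComplex) τ = 0 := by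
  rw [analyticOrderAt_eq_zero]
  right
  rwa [Function.comp_apply, ofComplex_apply]

lemma mdiff_inv_discriminant : MDiff (fun z : ℍ => (discriminant z)⁻¹) := by
  have h : MDiff discriminant := CuspForm.discriminant.holo'
  rw [UpperHalfPlane.mdifferentiable_iff] at h ⊢
  have h2 : (fun z : ℍ => (discriminant z)⁻¹) ∘ ofComplex = (discriminant ∘ ofComplex)⁻¹ := rfl
  rw [h2]
  exact h.inv fun z _ => discriminant_ne_zero _

lemma mdiff_jInv : MDiff jInv := by
  have m4 : MDiff (E₄ : ℍ → ℂ) := E₄.holo'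
  have h : jInv = fun z => (E₄ z * E₄ z * E₄ z) * (discriminant z)⁻¹ := by
    funext z
    rw [jInv, div_eq_mul_inv]; ring
  rw [h]
  exact ((m4.mul m4).mul m4).mul mdiff_inv_discriminant

lemma order_mul {F G : ℍ → ℂ} (hF : MDiff F) (hG : MDiff G) (τ : ℍ) :
    analyticOrderAt ((F * G) ∘ ofComplex) τ =
      analyticOrderAt (F ∘ ofComplex) τ + analyticOrderAt (G ∘ ofComplex) τ := by
  have : (F * G) ∘ ofComplex = (F ∘ ofComplex) * (G ∘ ofComplex) := rfl
  rw [this, analyticOrderAt_mul (analyticAt_comp_ofComplex hF τ) (analyticAt_comp_ofComplex hG τ)]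

/-- The order of `j - j(τ)` at a non-elliptic point `τ` is one. -/
theorem order_jInv_generic {τ : ℍ} (h4 : E₄ τ ≠ 0) (h6 : E₆ τ ≠ 0) :
    analyticOrderAt ((fun z => jInv z - jInv τ) ∘ ofComplex) τ = 1 := by
  set a := jInv τ with ha
  have hΔ := discriminant_ne_zero τ
  have ha0 : a ≠ 0 := by
    rw [ha, jInv]
    exact div_ne_zero (pow_ne_zero _ h4) hΔ
  have ha1 : a ≠ 1728 := by
    intro h
    have h2 := jInv_sub_1728 τ
    rw [← ha, h, sub_self] at h2
    exact div_ne_zero (pow_ne_zero _ h6) hΔ h2.symm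
  have h0 : pForm a τ = 0 := jInv_eq_iff_pForm.mp rfl
  have h : (fun z => jInv z - a) = (pForm a : ℍ → ℂ) * fun z => (discriminant z)⁻¹ := by
    funext z
    have hz := discriminant_ne_zero z
    simp only [Pi.mul_apply]
    rw [pForm_apply, jInv]
    field_simp
  have mp : MDiff (pForm a : ℍ → ℂ) := (pForm a).holo'
  rw [h, order_mul mp mdiff_inv_discriminant,
    order_eq_one_of_simple mp h0 (pForm_simple ha0 ha1 τ h0),
    order_eq_zero_of_ne (F := fun z => (discriminant z)⁻¹) (inv_ne_zero hΔ), add_zero]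

/-- The order of `j` at a zero of `E₄` is three. -/
theorem order_jInv_E4 {τ : ℍ} (h4 : E₄ τ = 0) :
    analyticOrderAt ((fun z => jInv z - jInv τ) ∘ ofComplex) τ = 3 := by
  have hΔ := discriminant_ne_zero τ
  have m4 : MDiff (E₄ : ℍ → ℂ) := E₄.holo'
  have ha : jInv τ = 0 := by rw [jInv, h4]; simp
  have h : (fun z => jInv z - jInv τ) =
      ((E₄ : ℍ → ℂ) * E₄ * E₄) * fun z => (discriminant z)⁻¹ := by
    funext z
    rw [ha, sub_zero, jInv, div_eq_mul_inv]
    simp only [Pi.mul_apply]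
    ring
  rw [h, order_mul ((m4.mul m4).mul m4) mdiff_inv_discriminant, order_mul (m4.mul m4) m4,
    order_mul m4 m4, order_eq_one_of_simple m4 h4 (E4_simple τ h4),
    order_eq_zero_of_ne (F := fun z => (discriminant z)⁻¹) (inv_ne_zero hΔ), add_zero]
  norm_num

/-- The order of `j - 1728` at a zero of `E₆` is two. -/
theorem order_jInv_E6 {τ : ℍ} (h6 : E₆ τ = 0) :
    analyticOrderAt ((fun z => jInv z - jInv τ) ∘ ofComplex) τ = 2 := by
  have hΔ := discriminant_ne_zero τ
  have m6 : MDiff (E₆ : ℍ → ℂ) := E₆.holo'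
  have ha : jInv τ = 1728 := by
    have := jInv_sub_1728 τ
    rw [h6] at this
    linear_combination this
  have h : (fun z => jInv z - jInv τ) =
      ((E₆ : ℍ → ℂ) * E₆) * fun z => (discriminant z)⁻¹ := by
    funext z
    rw [ha, jInv_sub_1728, div_eq_mul_inv]
    simp only [Pi.mul_apply]
    ring
  rw [h, order_mul (m6.mul m6) mdiff_inv_discriminant,
    order_mul m6 m6, order_eq_one_of_simple m6 h6 (E6_simple τ h6),
    order_eq_zero_of_ne (F := fun z => (discriminant z)⁻¹) (inv_ne_zero hΔ), add_zero]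
  norm_num

/-! ### Stabilizers -/

lemma smul_eq_iff (γ : SL(2, ℤ)) (τ : ℍ) :
    γ • τ = τ ↔ (γ 0 0 : ℂ) * τ + γ 0 1 = τ * ((γ 1 0 : ℂ) * τ + γ 1 1) := by
  have hd : (γ 1 0 : ℂ) * τ + γ 1 1 ≠ 0 := by
    rw [← denom_eq]; exact denom_ne_zero _ _
  constructor
  · intro h
    have h1 : ((γ • τ : ℍ) : ℂ) = τ := by rw [h]
    rw [UpperHalfPlane.specialLinearGroup_apply] at h1
    simp only [algebraMap_int_eq, eq_intCast, Complex.ofReal_intCast] at h1
    rwa [div_eq_iff hd] at h1
  · intro h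
    apply UpperHalfPlane.ext
    rw [UpperHalfPlane.specialLinearGroup_apply]
    simp only [algebraMap_int_eq, eq_intCast, Complex.ofReal_intCast]
    rw [div_eq_iff hd]
    exact h

lemma int_lin_ind (τ : ℍ) {m n : ℤ} (h : (m : ℂ) * τ + n = 0) : m = 0 ∧ n = 0 := by
  have h1 : (m : ℝ) * (τ : ℂ).im = 0 := by
    have := congrArg Complex.im h
    simpa using this
  have hm : m = 0 := by
    rcases mul_eq_zero.mp h1 with h | h
    · exact_mod_cast h
    · exact absurd h τ.im_pos.ne'
  subst hm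
  simpa using h

lemma det_eq (γ : SL(2, ℤ)) : γ 0 0 * γ 1 1 - γ 0 1 * γ 1 0 = 1 := by
  have := γ.det_coe
  rwa [Matrix.det_fin_two] at this

lemma SL_ext {γ γ' : SL(2, ℤ)} (h00 : γ 0 0 = γ' 0 0) (h01 : γ 0 1 = γ' 0 1)
    (h10 : γ 1 0 = γ' 1 0) (h11 : γ 1 1 = γ' 1 1) : γ = γ' := by
  ext i j
  fin_cases i <;> fin_cases j
  · exact h00
  · exact h01
  · exact h10
  · exact h11

lemma neg_entry (γ : SL(2, ℤ)) (i j : Fin 2) : (-γ) i j = -(γ i j) := by
  rw [Matrix.SpecialLinearGroup.coe_neg]; rfl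

/-- Stabilizers of non-elliptic points are trivial. -/
theorem stabilizer_generic {τ : ℍ} (h4 : E₄ τ ≠ 0) (h6 : E₆ τ ≠ 0) (γ : SL(2, ℤ)) :
    γ • τ = τ ↔ γ = 1 ∨ γ = -1 := by
  constructor
  · intro h
    have e4 := form_smul E₄ γ τ
    have e6 := form_smul E₆ γ τ
    rw [h] at e4 e6
    set d := denom γ τ with hd
    have d4 : d ^ (4 : ℤ) = 1 := by
      have : (d ^ (4 : ℤ) - 1) * E₄ τ = 0 := by linear_combination -e4
      rcases mul_eq_zero.mp this with h | h
      · linear_combination h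
      · exact absurd h h4
    have d6 : d ^ (6 : ℤ) = 1 := by
      have : (d ^ (6 : ℤ) - 1) * E₆ τ = 0 := by linear_combination -e6
      rcases mul_eq_zero.mp this with h | h
      · linear_combination h
      · exact absurd h h6
    have d2 : d ^ 2 = 1 := by
      have e1 : d ^ 4 = 1 := by exact_mod_cast d4
      have e2 : d ^ 6 = 1 := by exact_mod_cast d6
      have : d ^ 6 = d ^ 4 * d ^ 2 := by ring
      rw [this, e1, one_mul] at e2
      exact e2
    have hsm := (smul_eq_iff γ τ).mp h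
    have hdet := det_eq γ
    rw [denom_eq] at hd
    rcases sq_eq_one_iff.mp d2 with d1 | d1
    · rw [hd] at d1
      obtain ⟨hc, hd'⟩ := int_lin_ind τ (m := γ 1 0) (n := γ 1 1 - 1) (by
        push_cast; linear_combination d1)
      have h11 : γ 1 1 = 1 := by linarith
      rw [hc, h11] at hdet hsm
      have h00 : γ 0 0 = 1 := by linarith
      rw [h00] at hsm
      have h01 : γ 0 1 = 0 := by
        have : ((γ 0 1 : ℤ) : ℂ) = 0 := by push_cast at hsm; linear_combination hsm
        exact_mod_cast this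
      left
      exact SL_ext h00 h01 hc h11
    · rw [hd] at d1
      obtain ⟨hc, hd'⟩ := int_lin_ind τ (m := γ 1 0) (n := γ 1 1 + 1) (by
        push_cast; linear_combination d1)
      have h11 : γ 1 1 = -1 := by linarith
      rw [hc, h11] at hdet hsm
      have h00 : γ 0 0 = -1 := by linarith
      rw [h00] at hsm
      have h01 : γ 0 1 = 0 := by
        have : ((γ 0 1 : ℤ) : ℂ) = 0 := by push_cast at hsm; linear_combination hsm
        exact_mod_cast this
      right
      refine SL_ext ?_ ?_ ?_ ?_ <;> rw [neg_entry]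
      · exact h00
      · rw [h01]; rfl
      · rw [hc]; rfl
      · exact h11
  · rintro (rfl | rfl)
    · exact one_smul _ _
    · rw [ModularGroup.SL_neg_smul, one_smul]

lemma S_smul_I : ModularGroup.S • UpperHalfPlane.I = UpperHalfPlane.I := by
  ext
  rw [modular_S_smul]
  simp

lemma int_abs_le_one {c : ℤ} (h : c * c ≤ 1) : c = -1 ∨ c = 0 ∨ c = 1 := by
  have h1 : -1 ≤ c := by nlinarith
  have h2 : c ≤ 1 := by nlinarith
  omega

/-- The stabilizer of `i`. -/
theorem stabilizer_I (γ : SL(2, ℤ)) :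
    γ • UpperHalfPlane.I = UpperHalfPlane.I ↔
      γ = 1 ∨ γ = -1 ∨ γ = ModularGroup.S ∨ γ = -ModularGroup.S := by
  constructor
  · intro h
    have hsm := (smul_eq_iff γ _).mp h
    have hdet := det_eq γ
    rw [UpperHalfPlane.coe_I] at hsm
    have h1 : (γ 1 1 : ℝ) = γ 0 0 := by
      have := congrArg Complex.im hsm
      simpa using this.symm
    have h2 : (γ 0 1 : ℝ) = - γ 1 0 := by
      have := congrArg Complex.re hsm
      simpa using this
    have h1' : γ 1 1 = γ 0 0 := by exact_mod_cast h1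
    have h2' : γ 0 1 = - γ 1 0 := by exact_mod_cast h2
    rw [h1', h2'] at hdet
    have hsq : γ 0 0 * γ 0 0 + γ 1 0 * γ 1 0 = 1 := by linarith
    have ha := int_abs_le_one (c := γ 0 0) (by nlinarith [mul_self_nonneg (γ 1 0)])
    have hc := int_abs_le_one (c := γ 1 0) (by nlinarith [mul_self_nonneg (γ 0 0)])
    rcases ha with ha | ha | ha <;> rcases hc with hc | hc | hc <;> rw [ha, hc] at hsq <;>
      norm_num at hsq
    · right; left
      refine SL_ext ?_ ?_ ?_ ?_ <;> rw [neg_entry] <;> simp [ha, hc, h1', h2']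
    · right; right; right
      refine SL_ext ?_ ?_ ?_ ?_ <;> rw [neg_entry] <;> simp [ha, hc, h1', h2', ModularGroup.S]
    · right; right; left
      refine SL_ext ?_ ?_ ?_ ?_ <;> simp [ha, hc, h1', h2', ModularGroup.S]
    · left
      refine SL_ext ?_ ?_ ?_ ?_ <;> simp [ha, hc, h1', h2']
  · rintro (rfl | rfl | rfl | rfl)
    · exact one_smul _ _
    · rw [ModularGroup.SL_neg_smul, one_smul]
    · exact S_smul_I
    · rw [ModularGroup.SL_neg_smul, S_smul_I]

/-- The stabilizer of `ρ`. -/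
theorem stabilizer_rho (γ : SL(2, ℤ)) :
    γ • rho = rho ↔ γ = 1 ∨ γ = -1 ∨ γ = gRho ∨ γ = -gRho ∨ γ = gRho ^ 2 ∨ γ = -gRho ^ 2 := by
  constructor
  · intro h
    have hsm := (smul_eq_iff γ _).mp h
    have hdet := det_eq γ
    have hρ := rho_sq
    obtain ⟨h1, h2⟩ := int_lin_ind rho (m := γ 0 0 + γ 1 0 - γ 1 1) (n := γ 0 1 + γ 1 0) (by
      push_cast
      linear_combination hsm + (γ 1 0 : ℂ) * hρ)
    have h1' : γ 0 0 = γ 1 1 - γ 1 0 := by linarith
    have h2' : γ 0 1 = - γ 1 0 := by linarith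
    rw [h1', h2'] at hdet
    have hq : γ 1 1 * γ 1 1 - γ 1 0 * γ 1 1 + γ 1 0 * γ 1 0 = 1 := by linarith
    have hc := int_abs_le_one (c := γ 1 0) (by
      nlinarith [mul_self_nonneg (2 * γ 1 1 - γ 1 0)])
    have hd := int_abs_le_one (c := γ 1 1) (by
      nlinarith [mul_self_nonneg (2 * γ 1 0 - γ 1 1)])
    have g00 : gRho 0 0 = -1 := rfl
    have g01 : gRho 0 1 = -1 := rfl
    have g10 : gRho 1 0 = 1 := rfl
    have g11 : gRho 1 1 = 0 := rfl
    have k00 : (gRho ^ 2) 0 0 = 0 := rfl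
    have k01 : (gRho ^ 2) 0 1 = 1 := rfl
    have k10 : (gRho ^ 2) 1 0 = -1 := rfl
    have k11 : (gRho ^ 2) 1 1 = -1 := rfl
    rcases hc with hc | hc | hc <;> rcases hd with hd | hd | hd <;> rw [hd, hc] at hq <;>
      norm_num at hq
    · right; right; right; right; left
      refine SL_ext ?_ ?_ ?_ ?_ <;> simp [hc, hd, h1', h2', k00, k01, k10, k11]
    · right; right; right; left
      refine SL_ext ?_ ?_ ?_ ?_ <;> rw [neg_entry] <;> simp [hc, hd, h1', h2', g00, g01, g10, g11]
    · right; left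
      refine SL_ext ?_ ?_ ?_ ?_ <;> rw [neg_entry] <;> simp [hc, hd, h1', h2']
    · left
      refine SL_ext ?_ ?_ ?_ ?_ <;> simp [hc, hd, h1', h2']
    · right; right; left
      refine SL_ext ?_ ?_ ?_ ?_ <;> simp [hc, hd, h1', h2', g00, g01, g10, g11]
    · right; right; right; right; right
      refine SL_ext ?_ ?_ ?_ ?_ <;> rw [neg_entry] <;> simp [hc, hd, h1', h2', k00, k01, k10, k11]
  · have e1 := gRho_smul
    have e2 : gRho ^ 2 • rho = rho := by rw [pow_two, mul_smul, e1, e1]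
    rintro (rfl | rfl | rfl | rfl | rfl | rfl)
    · exact one_smul _ _
    · rw [ModularGroup.SL_neg_smul, one_smul]
    · exact e1
    · rw [ModularGroup.SL_neg_smul, e1]
    · exact e2
    · rw [ModularGroup.SL_neg_smul, e2]

end Fermat.Agent.JInv
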